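/-
T1A (S19), REDUCTION layer, brick R-g CENTRES (helper92), part 5: THE CENTRES THEOREM IN THE `ℓ`-ADIC
MODEL, the shape of the field `centres` of `AlgIface47.DiscGroupData`.

Setting (as in `AlgIface47.GLUE`): `Ω` an algebraically closed field (`ℚ̄`) with a ring embedding
`ι : Ω →+* K̄ = PadicAlgCl ℓ` and a map `res : G_ℓ → Aut Ω` with `ι (res σ x) = σ (ι x)`;
`A = {x | ‖ι x‖ ≤ 1}`; `W` a DVR inside `Ω` dominated by `A`, with `ι W ⊆ ℚ_ℓ(μ_{m₀})`, `ℓ ∤ m₀`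
(`W = 𝒪_{K1}`, `K1 = ℚ(ζ_M)`); `B` a finitely generated chart over `W` with the six hypotheses of
`Main.exists_centre_valuationSubring`.

`exists_centre_local`: every integral point `q` of `B` has a centre `q'`: integral, congruent to `q`
modulo the maximal ideal, with all values `ι (q' b)` in ONE field `ℚ_ℓ(μ_m)`, `ℓ ∤ m`, `m₀ ∣ m`; hence
fixed by `res σ` for every `σ ∈ G_ℓ` fixing `ℚ_ℓ(μ_m)` pointwise.
-/
import Mathlib
import Fermat.Agent.T1.Centres92.Main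
import Fermat.Agent.T1.Unram47

set_option autoImplicit false

open Polynomial

namespace Fermat.Agent.T1.Centres92.ToLocal

open Fermat.Agent.TW.B5.Iface Fermat.Agent.TW.B5.LG83W Fermat.Agent.TW.B5.LG83X Fermat.Agent.T1.Unram47

variable (ℓ : ℕ) [Fact ℓ.Prime]

section Ball

variable {ℓ}
variable {Ω : Type*} [Field Ω] (ι : Ω →+* Kbar ℓ)

/-- the unit ball of `Ω` for the absolute value `x ↦ ‖ι x‖`. -/
def unitBall : ValuationSubring Ω where
  carrier := {x | ‖ι x‖ ≤ 1}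
  mul_mem' := fun {a b} ha hb => by
    show ‖ι (a * b)‖ ≤ 1
    rw [map_mul, norm_mul]
    exact mul_le_one₀ ha (norm_nonneg _) hb
  one_mem' := by show ‖ι 1‖ ≤ 1; rw [map_one, norm_one]
  add_mem' := fun {a b} ha hb => by
    show ‖ι (a + b)‖ ≤ 1
    rw [map_add]
    exact (PadicAlgCl.isNonarchimedean ℓ _ _).trans (max_le ha hb)
  zero_mem' := by show ‖ι 0‖ ≤ 1; rw [map_zero, norm_zero]; exact zero_le_one
  neg_mem' := fun {a} ha => by
    show ‖ι (-a)‖ ≤ 1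
    rw [map_neg, norm_neg]
    exact ha
  mem_or_inv_mem' := fun a => by
    show ‖ι a‖ ≤ 1 ∨ ‖ι a⁻¹‖ ≤ 1
    rcases le_total ‖ι a‖ 1 with h | h
    · exact Or.inl h
    · right
      rw [map_inv₀, norm_inv]
      exact inv_le_one_of_one_le₀ h

theorem mem_unitBall (x : Ω) : x ∈ unitBall ι ↔ ‖ι x‖ ≤ 1 := Iff.rfl

variable {ι}

/-- `v(x) < 1 ↔ ‖ι x‖ < 1` for a valuation subring cut out by `‖ι ·‖ ≤ 1`. -/
theorem valuation_lt_one_iff_norm {A : ValuationSubring Ω} (hA : ∀ x, x ∈ A ↔ ‖ι x‖ ≤ 1) (x : Ω) :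
    A.valuation x < 1 ↔ ‖ι x‖ < 1 := by
  by_cases hx : x = 0
  · subst hx
    simp
  · have hιx : ι x ≠ 0 := (map_ne_zero ι).mpr hx
    have hpos : 0 < ‖ι x‖ := norm_pos_iff.mpr hιx
    have h1 : A.valuation x < 1 ↔ ¬ (x⁻¹ ∈ A) := by
      rw [← A.valuation_le_one_iff, map_inv₀, not_le]
      have hv : A.valuation x ≠ 0 := (Valuation.ne_zero_iff _).mpr hx
      rw [one_lt_inv₀ (zero_lt_iff.mpr hv)]
    rw [h1, hA, map_inv₀, norm_inv, not_le, one_lt_inv₀ hpos]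

end Ball

variable {W : Type*} [CommRing W] [IsDomain W] [IsDiscreteValuationRing W]
variable {Ω : Type*} [Field Ω] [Algebra W Ω]
variable {B : Type*} [CommRing B] [IsDomain B] [Algebra W B]

/-- **The centres theorem in the `ℓ`-adic model.** -/
theorem exists_centre_local [IsAlgClosed Ω] [Algebra.IsAlgebraic W Ω] [Algebra.FiniteType W B]
    {π : W} (hπ : Irreducible π) (hinj : Function.Injective (algebraMap W Ω))
    (ι : Ω →+* Kbar ℓ) (res : Gp ℓ → Ω ≃+* Ω) (hres : ∀ σ x, ι (res σ x) = σ (ι x))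
    (A : ValuationSubring Ω) (hA : ∀ x, x ∈ A ↔ ‖ι x‖ ≤ 1)
    (hWA : ∀ w : W, ‖ι (algebraMap W Ω w)‖ ≤ 1)
    (hdom : ∀ w : W, ‖ι (algebraMap W Ω w)‖ < 1 ↔ w ∈ IsLocalRing.maximalIdeal W)
    (m₀ : ℕ) (hm₀ : ¬ ℓ ∣ m₀) (hWmu : ∀ w : W, ι (algebraMap W Ω w) ∈ muField ℓ m₀)
    (hπ0 : algebraMap W B π ≠ 0)
    (hprime : (Ideal.span {algebraMap W B π}).IsPrime)
    (hne : ∀ n : Ideal B, n.IsMaximal → algebraMap W B π ∈ n →
      n ≠ Ideal.span {algebraMap W B π})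
    (hsmooth : ∀ n : Ideal B, n.IsMaximal → algebraMap W B π ∈ n →
      ∃ s ∈ n, ∀ y ∈ n, ∃ d : B, d ∉ n ∧ d * y ∈ Ideal.span {algebraMap W B π, s})
    (halg : ∀ P : Ideal B, P.IsPrime → P ≠ ⊥ → algebraMap W B π ∉ P →
      Algebra.IsAlgebraic W (B ⧸ P))
    (hsep : ∀ n : Ideal B, n.IsMaximal → algebraMap W B π ∈ n →
      ∀ c : B, ∃ G : W[X], aeval c G ∈ n ∧ aeval c (derivative G) ∉ n)
    (q : B →ₐ[W] Ω) (hq : ∀ b, ‖ι (q b)‖ ≤ 1) :
    ∃ q' : B →ₐ[W] Ω, (∀ b, ‖ι (q' b)‖ ≤ 1) ∧ (∀ b, ‖ι (q' b) - ι (q b)‖ < 1) ∧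
      ∃ m : ℕ, ¬ ℓ ∣ m ∧ m₀ ∣ m ∧ (∀ b, ι (q' b) ∈ muField ℓ m) ∧
        ∀ σ : Gp ℓ, (∀ e ∈ muField ℓ m, σ e = e) → ∀ b, res σ (q' b) = q' b := by
  classical
  have hp : ℓ.Prime := Fact.out
  have hιinj : Function.Injective ι := ι.injective
  obtain ⟨q', hq'A, hcong, hfix⟩ := Main.exists_centre_valuationSubring hπ hinj A
    (fun w => (hA _).mpr (hWA w))
    (fun w => by rw [valuation_lt_one_iff_norm hA]; exact hdom w)
    hπ0 hprime hne hsmooth halg hsep q (fun b => (hA _).mpr (hq b))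
  have hq'1 : ∀ b, ‖ι (q' b)‖ ≤ 1 := fun b => (hA _).mp (hq'A b)
  -- inertia fixes the values of `q'`
  have hin : ∀ b, ∀ τ : Gp ℓ, IsInertial ℓ τ → τ (ι (q' b)) = ι (q' b) := by
    intro b τ hτ
    rw [← hres]
    congr 1
    apply hfix (res τ)
    · intro w
      apply hιinj
      rw [hres]
      exact inertial_fixes_muField ℓ hm₀ hτ _ (hWmu w)
    · intro a ha
      have ha1 : ‖ι a‖ ≤ 1 := (hA a).mp ha
      constructor
      · rw [hA, hres, Fermat.Agent.TW.B5.LG83B.norm_gal]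
        exact ha1
      · rw [valuation_lt_one_iff_norm hA, map_sub, hres]
        exact hτ (ι a) ha1
  -- one `m` for a finite set of generators
  obtain ⟨S, hS⟩ := (Algebra.FiniteType.out : (⊤ : Subalgebra W B).FG)
  obtain ⟨m₁, hm₁, hm₁S⟩ := exists_muField_of_finset ℓ (S.image (fun b => ι (q' b))) (by
    intro x hx τ hτ
    obtain ⟨b, -, rfl⟩ := Finset.mem_image.mp hx
    exact hin b τ hτ)
  have hm : ¬ ℓ ∣ m₀ * m₁ := by
    intro h
    rcases (Nat.Prime.dvd_mul hp).mp h with h | h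
    · exact hm₀ h
    · exact hm₁ h
  have hmem : ∀ b, ι (q' b) ∈ muField ℓ (m₀ * m₁) := by
    intro b
    have hb : b ∈ Algebra.adjoin W (S : Set B) := by rw [hS]; exact Algebra.mem_top
    induction hb using Algebra.adjoin_induction with
    | mem x hx =>
      exact muField_le_of_dvd ℓ (dvd_mul_left m₁ m₀) (hm₁S _ (Finset.mem_image.mpr ⟨x, hx, rfl⟩))
    | algebraMap w =>
      rw [AlgHom.commutes]
      exact muField_le_of_dvd ℓ (dvd_mul_right m₀ m₁) (hWmu w)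
    | add x y _ _ hx hy =>
      rw [map_add, map_add]
      exact (muField ℓ (m₀ * m₁)).add_mem hx hy
    | mul x y _ _ hx hy =>
      rw [map_mul, map_mul]
      exact (muField ℓ (m₀ * m₁)).mul_mem hx hy
  refine ⟨q', hq'1, fun b => ?_, m₀ * m₁, hm, dvd_mul_right m₀ m₁, hmem, fun σ hσ b => ?_⟩
  · rw [← map_sub]
    exact (valuation_lt_one_iff_norm hA _).mp (hcong b)
  · apply hιinj
    rw [hres]
    exact hσ _ (hmem b)

end Fermat.Agent.T1.Centres92.ToLocal
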