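/-
T1A (S19), REDUCTION layer, brick R-g CENTRES (helper92), part 6: THE CENTRES THEOREM FOR THE CHARTS OF A
`TwoChartModel` (wiring of helper94's `Centres94.OfModel.Chart` facts into `ToLocal.exists_centre_local`).

* `Chart.irreducible_pi`, `Chart.isDVR` : the base of a chart package is a DVR with uniformiser `π`;
* `finiteType1` : for a `TwoChartModel` in characteristic zero with `F` finite over `K(t)` and `t`
  transcendental, the chart `B1` is an `R`-algebra of finite type (`B1 = chart R t⁻¹`, helper22's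
  `ChartGeneric22.chart_facts`);
* `Chart.exists_centre_local` : the centres theorem for one chart package (no DVR instance, no
  `hdom`: only `‖ι w‖ ≤ 1` on `R` and `‖ι π‖ < 1`);
* `exists_centre_local0`, `exists_centre_local1` : the two charts of a `TwoChartModel`.
-/
import Mathlib
import Fermat.Agent.T1.Centres92.ToLocal
import Fermat.Agent.T1.Centres94.OfModel
import Fermat.Agent.RED.PUR.ChartGeneric22

set_option autoImplicit false
set_option linter.style.haveILetI false

open Polynomial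

noncomputable section

namespace Fermat.Agent.T1.Centres92.OfModel92

open Fermat.Agent.TW.B5.Iface Fermat.Agent.TW.B5.LG83W Fermat.Agent.T1.Centres94.OfModel
  Fermat.Agent.RED.CORE.CoreIface24 Fermat.Agent.RED.PUR.ChartGeneric22

section Base

variable {R F : Type*} [CommRing R] [Field F] [Algebra R F]
variable {π : R} {τ : F} {B : Subalgebra R F} {Ov : ValuationSubring F}

/-- `π ≠ 0` in `R`. -/
theorem pi_ne_zero (h : Chart π τ B Ov) : π ≠ 0 := by
  rintro rfl
  exact h.pi_ne (map_zero _)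

/-- `π` is irreducible. -/
theorem irreducible_pi (h : Chart π τ B Ov) : Irreducible π := by
  haveI := h.domR
  have hmax := h.isMaximal_span_pi_base
  exact ((Ideal.span_singleton_prime (pi_ne_zero h)).mp hmax.isPrime).irreducible

/-- The base of a chart package is a DVR. -/
theorem isDVR [IsDomain R] (h : Chart π τ B Ov) : IsDiscreteValuationRing R := by
  apply IsDiscreteValuationRing.ofHasUnitMulPowIrreducibleFactorization
  refine ⟨π, irreducible_pi h, fun {x} hx => ?_⟩
  obtain ⟨k, v, e⟩ := h.dvrR x hx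
  exact ⟨k, v, e.symm⟩

end Base

section Centre

variable (ℓ : ℕ) [Fact ℓ.Prime]
variable {R F : Type*} [CommRing R] [Field F] [Algebra R F]
variable {π : R} {τ : F} {B : Subalgebra R F} {Ov : ValuationSubring F}

/-- **The centres theorem for one chart package.**  `R` need not carry a DVR instance (it is
derived from the package), and domination is only asked in the form `‖ι π‖ < 1`. -/
theorem exists_centre_local_chart (h : Chart π τ B Ov) [Finite (R ⧸ Ideal.span {π})]
    (htr : Transcendental R τ) [Algebra.FiniteType R B]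
    {Ω : Type*} [Field Ω] [Algebra R Ω] [IsAlgClosed Ω] [Algebra.IsAlgebraic R Ω]
    (hinj : Function.Injective (algebraMap R Ω))
    (ι : Ω →+* Kbar ℓ) (res : Gp ℓ → Ω ≃+* Ω) (hres : ∀ σ x, ι (res σ x) = σ (ι x))
    (hWA : ∀ w : R, ‖ι (algebraMap R Ω w)‖ ≤ 1) (hπι : ‖ι (algebraMap R Ω π)‖ < 1)
    (m₀ : ℕ) (hm₀ : ¬ ℓ ∣ m₀) (hWmu : ∀ w : R, ι (algebraMap R Ω w) ∈ muField ℓ m₀)
    (q : B →ₐ[R] Ω) (hq : ∀ b, ‖ι (q b)‖ ≤ 1) :
    ∃ q' : B →ₐ[R] Ω, (∀ b, ‖ι (q' b)‖ ≤ 1) ∧ (∀ b, ‖ι (q' b) - ι (q b)‖ < 1) ∧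
      ∃ m : ℕ, ¬ ℓ ∣ m ∧ m₀ ∣ m ∧ (∀ b, ι (q' b) ∈ muField ℓ m) ∧
        ∀ σ : Gp ℓ, (∀ e ∈ muField ℓ m, σ e = e) → ∀ b, res σ (q' b) = q' b := by
  haveI := h.domR
  haveI : IsDiscreteValuationRing R := isDVR h
  have hπ : Irreducible π := irreducible_pi h
  have hdom : ∀ w : R, ‖ι (algebraMap R Ω w)‖ < 1 ↔ w ∈ IsLocalRing.maximalIdeal R := by
    intro w
    constructor
    · intro hw
      by_contra hwm
      have hu : IsUnit w := by
        by_contra hnu
        exact hwm ((IsLocalRing.mem_maximalIdeal w).mpr hnu)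
      obtain ⟨w', hw'⟩ := hu.exists_right_inv
      have h1 : ‖ι (algebraMap R Ω w)‖ * ‖ι (algebraMap R Ω w')‖ = 1 := by
        rw [← norm_mul, ← map_mul, ← map_mul, hw', map_one, map_one, norm_one]
      have h2 : ‖ι (algebraMap R Ω w)‖ * ‖ι (algebraMap R Ω w')‖ < 1 := by
        calc ‖ι (algebraMap R Ω w)‖ * ‖ι (algebraMap R Ω w')‖
            ≤ ‖ι (algebraMap R Ω w)‖ * 1 :=
              mul_le_mul_of_nonneg_left (hWA w') (norm_nonneg _)
          _ < 1 := by rw [mul_one]; exact hw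
      exact absurd h1 (ne_of_lt h2)
    · intro hw
      rw [hπ.maximalIdeal_eq, Ideal.mem_span_singleton'] at hw
      obtain ⟨c, rfl⟩ := hw
      rw [map_mul, map_mul, norm_mul]
      calc ‖ι (algebraMap R Ω c)‖ * ‖ι (algebraMap R Ω π)‖
          ≤ 1 * ‖ι (algebraMap R Ω π)‖ := mul_le_mul_of_nonneg_right (hWA c) (norm_nonneg _)
        _ < 1 := by rw [one_mul]; exact hπι
  exact ToLocal.exists_centre_local ℓ hπ hinj ι res hres (ToLocal.unitBall ι)
    (fun x => ToLocal.mem_unitBall ι x) hWA hdom m₀ hm₀ hWmu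
    h.piB_ne_zero h.isPrime_span_pi (h.ne_span_pi htr) h.smooth h.halg h.hsep q hq

end Centre

section Model

variable {R K F : Type*} [CommRing R] [Field K] [Field F] [Algebra R K] [Algebra K F]
  [Algebra R F] [IsScalarTower R K F]
variable {π : R} {t : F} {B0 B1 : Subalgebra R F} {Ov : ValuationSubring F}

omit [Algebra K F] [IsScalarTower R K F] in
/-- The chart `B1` of a two-chart model is the integral closure of `R[t⁻¹]` in `F`. -/
theorem eq_chart1 (M : TwoChartModel R K F π t B0 B1 Ov) : B1 = chart R t⁻¹ := by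
  ext x
  rw [mem_chart_iff]
  constructor
  · exact M.int1 x
  · intro hx
    apply M.intcl1
    rw [isIntegral_subalgebra_iff] at hx ⊢
    obtain ⟨P, hP, hcoeff, hPx⟩ := hx
    refine ⟨P, hP, fun i => ?_, hPx⟩
    have hle : Algebra.adjoin R {t⁻¹} ≤ B1 := by
      rw [Algebra.adjoin_le_iff, Set.singleton_subset_iff]
      exact M.tinv_mem
    exact hle (hcoeff i)

omit [Algebra K F] [IsScalarTower R K F] in
/-- The chart `B0` of a two-chart model is the integral closure of `R[t]` in `F`. -/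
theorem eq_chart0 (M : TwoChartModel R K F π t B0 B1 Ov) : B0 = chart R t := by
  ext x
  rw [mem_chart_iff]
  constructor
  · exact M.int0 x
  · intro hx
    apply M.intcl0
    rw [isIntegral_subalgebra_iff] at hx ⊢
    obtain ⟨P, hP, hcoeff, hPx⟩ := hx
    refine ⟨P, hP, fun i => ?_, hPx⟩
    have hle : Algebra.adjoin R {t} ≤ B0 := by
      rw [Algebra.adjoin_le_iff, Set.singleton_subset_iff]
      exact M.t_mem
    exact hle (hcoeff i)

/-- `chart R s` is an `R`-algebra of finite type (characteristic zero, `F` finite over `K(s)`,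
`s` transcendental; `R` a DVR). -/
theorem finiteType_chart92 [IsDomain R] [IsDiscreteValuationRing R] [IsFractionRing R K]
    [CharZero K] (E : IntermediateField K F) [FiniteDimensional E F] {s : F} (hs : s ∈ E)
    (hE : E ≤ IntermediateField.adjoin K {s}) (htr : Transcendental K s) :
    (chart R s).FG := by
  classical
  obtain ⟨-, -, r, e, he, hgen⟩ := chart_facts (R := R) E hs hE htr
  refine ⟨insert s (Finset.univ.image e), le_antisymm ?_ ?_⟩
  · apply Algebra.adjoin_le
    intro y hy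
    rw [Finset.coe_insert, Set.mem_insert_iff] at hy
    rcases hy with rfl | hy
    · exact self_mem_chart _
    · rw [Finset.coe_image, Set.mem_image] at hy
      obtain ⟨i, -, rfl⟩ := hy
      exact he i
  · intro x hx
    obtain ⟨P, rfl⟩ := hgen x hx
    refine Subalgebra.sum_mem _ fun i _ => Subalgebra.mul_mem _ ?_ ?_
    · have h1 : aeval s (P i) ∈ Algebra.adjoin R {s} := aeval_mem_adjoin_singleton R s
      refine Algebra.adjoin_mono ?_ h1
      rw [Set.singleton_subset_iff, Finset.coe_insert]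
      exact Set.mem_insert _ _
    · apply Algebra.subset_adjoin
      rw [Finset.coe_insert, Finset.coe_image]
      exact Set.mem_insert_of_mem _ ⟨i, Finset.mem_coe.mpr (Finset.mem_univ i), rfl⟩

/-- `B1` is an `R`-algebra of finite type (characteristic zero, `F` finite over `K(t)`, `t`
transcendental over `K`).  The contract has `fin0` only; this is the missing `fin1`. -/
theorem finiteType1 (M : TwoChartModel R K F π t B0 B1 Ov) [CharZero K]
    [FiniteDimensional ↥(IntermediateField.adjoin K {t}) F] (htr : Transcendental K t) :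
    Algebra.FiniteType R B1 := by
  haveI := (chart1 M).domR
  haveI : IsDiscreteValuationRing R := isDVR (chart1 M)
  haveI := M.fracR
  have htr' : Transcendental K t⁻¹ := fun h => htr (IsAlgebraic.inv_iff.mp h)
  have hfg : (chart R t⁻¹).FG :=
    finiteType_chart92 (R := R) (IntermediateField.adjoin K {t})
      (inv_mem (IntermediateField.mem_adjoin_simple_self K t))
      (by
        rw [IntermediateField.adjoin_le_iff, Set.singleton_subset_iff]
        have h2 := inv_mem (IntermediateField.mem_adjoin_simple_self K t⁻¹)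
        rwa [inv_inv] at h2) htr'
  rw [← eq_chart1 M] at hfg
  exact (Subalgebra.fg_iff_finiteType B1).mp hfg

variable (ℓ : ℕ) [Fact ℓ.Prime]

/-- **Centres on chart 0 of a two-chart model.** -/
theorem exists_centre_local0 (M : TwoChartModel R K F π t B0 B1 Ov)
    [Finite (R ⧸ Ideal.span {π})] (htr : Transcendental K t)
    {Ω : Type*} [Field Ω] [Algebra R Ω] [IsAlgClosed Ω] [Algebra.IsAlgebraic R Ω]
    (hinj : Function.Injective (algebraMap R Ω))
    (ι : Ω →+* Kbar ℓ) (res : Gp ℓ → Ω ≃+* Ω) (hres : ∀ σ x, ι (res σ x) = σ (ι x))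
    (hWA : ∀ w : R, ‖ι (algebraMap R Ω w)‖ ≤ 1) (hπι : ‖ι (algebraMap R Ω π)‖ < 1)
    (m₀ : ℕ) (hm₀ : ¬ ℓ ∣ m₀) (hWmu : ∀ w : R, ι (algebraMap R Ω w) ∈ muField ℓ m₀)
    (q : B0 →ₐ[R] Ω) (hq : ∀ b, ‖ι (q b)‖ ≤ 1) :
    ∃ q' : B0 →ₐ[R] Ω, (∀ b, ‖ι (q' b)‖ ≤ 1) ∧ (∀ b, ‖ι (q' b) - ι (q b)‖ < 1) ∧
      ∃ m : ℕ, ¬ ℓ ∣ m ∧ m₀ ∣ m ∧ (∀ b, ι (q' b) ∈ muField ℓ m) ∧
        ∀ σ : Gp ℓ, (∀ e ∈ muField ℓ m, σ e = e) → ∀ b, res σ (q' b) = q' b := by
  haveI := finiteType0 M
  exact exists_centre_local_chart ℓ (chart0 M) (transcendental0 M htr) hinj ι res hres hWA hπι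
    m₀ hm₀ hWmu q hq

/-- **Centres on chart 1 of a two-chart model** (characteristic zero, `F` finite over `K(t)`). -/
theorem exists_centre_local1 (M : TwoChartModel R K F π t B0 B1 Ov)
    [Finite (R ⧸ Ideal.span {π})] (htr : Transcendental K t) [CharZero K]
    [FiniteDimensional ↥(IntermediateField.adjoin K {t}) F]
    {Ω : Type*} [Field Ω] [Algebra R Ω] [IsAlgClosed Ω] [Algebra.IsAlgebraic R Ω]
    (hinj : Function.Injective (algebraMap R Ω))
    (ι : Ω →+* Kbar ℓ) (res : Gp ℓ → Ω ≃+* Ω) (hres : ∀ σ x, ι (res σ x) = σ (ι x))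
    (hWA : ∀ w : R, ‖ι (algebraMap R Ω w)‖ ≤ 1) (hπι : ‖ι (algebraMap R Ω π)‖ < 1)
    (m₀ : ℕ) (hm₀ : ¬ ℓ ∣ m₀) (hWmu : ∀ w : R, ι (algebraMap R Ω w) ∈ muField ℓ m₀)
    (q : B1 →ₐ[R] Ω) (hq : ∀ b, ‖ι (q b)‖ ≤ 1) :
    ∃ q' : B1 →ₐ[R] Ω, (∀ b, ‖ι (q' b)‖ ≤ 1) ∧ (∀ b, ‖ι (q' b) - ι (q b)‖ < 1) ∧
      ∃ m : ℕ, ¬ ℓ ∣ m ∧ m₀ ∣ m ∧ (∀ b, ι (q' b) ∈ muField ℓ m) ∧
        ∀ σ : Gp ℓ, (∀ e ∈ muField ℓ m, σ e = e) → ∀ b, res σ (q' b) = q' b := by
  haveI := finiteType1 M htr
  exact exists_centre_local_chart ℓ (chart1 M) (transcendental1 M htr) hinj ι res hres hWA hπι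
    m₀ hm₀ hWmu q hq

end Model

end Fermat.Agent.T1.Centres92.OfModel92
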