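/-
T1A (S19), REDUCTION layer, brick R-g CENTRES (helper92), part 7: DESCENT OF A CENTRE TO THE HUB RINGS.

The centres theorem (`ToLocal.exists_centre_local`, `OfModel92.exists_centre_local0/1`) produces, for an
integral point `q` with values in `Ω = ℚ̄`, a centre `q'Ω : B →ₐ[W] Ω`.  The hub (`Assembly41.HubData`)
works with a fixed big number field `L ⊂ Ω` (embedding `jL`) and its valuation ring `O`.  Here:

* `exists_descent` : an algebra map `B →ₐ[W] Ω` with values in the range of an injective ring map
  `g : O →+* Ω` (compatible with `W`) factors through `O`;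
* `mem_range_of_generators` : the values lie in a subfield as soon as the values on algebra generators do;
* `exists_centre_descended` : if `O = {x ∈ L | ‖ι (jL x)‖ ≤ 1}` and `L` contains the values of `q'Ω` on a
  generating set of `B`, then `q'Ω` descends to `q' : B →ₐ[W] O` with the same reduction as `q`;
* `fixed_of_descended` : if `f : O →+* O` is intertwined by `g` with `ρ : Ω →+* Ω` and `ρ` fixes the values of
  `q'Ω`, then `f` fixes the values of `q'`.
-/
import Mathlib

set_option autoImplicit false

namespace Fermat.Agent.T1.Centres92.Descend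

variable {W B O Ω : Type*} [CommRing W] [CommRing B] [Algebra W B] [CommRing O] [Algebra W O]
  [Field Ω] [Algebra W Ω]

/-- An algebra map to `Ω` with values in the range of an injective ring map `g : O →+* Ω` compatible
with `W` factors through `O`. -/
theorem exists_descent (g : O →+* Ω) (hg : Function.Injective g)
    (hgW : ∀ w : W, g (algebraMap W O w) = algebraMap W Ω w)
    (p : B →ₐ[W] Ω) (hr : ∀ b, p b ∈ g.range) :
    ∃ q' : B →ₐ[W] O, ∀ b, g (q' b) = p b := by
  classical
  let e : O ≃+* g.range := RingEquiv.ofBijective g.rangeRestrict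
    ⟨fun a b h => hg (congrArg Subtype.val h), g.rangeRestrict_surjective⟩
  let f' : B →+* g.range := (p : B →+* Ω).codRestrict g.range hr
  let r : B →+* O := (e.symm : g.range →+* O).comp f'
  have hr' : ∀ b, g (r b) = p b := by
    intro b
    have h1 : e (r b) = f' b := e.apply_symm_apply (f' b)
    have h2 : ((e (r b) : g.range) : Ω) = g (r b) := rfl
    rw [← h2, h1]
    rfl
  refine ⟨{ r with commutes' := fun w => ?_ }, hr'⟩
  apply hg
  show g (r (algebraMap W B w)) = g (algebraMap W O w)
  rw [hr', hgW, AlgHom.commutes]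

/-- The values of an algebra map lie in a subring containing the image of `W` as soon as the values on
algebra generators do. -/
theorem mem_of_generators (T : Subring Ω) (hT : ∀ w : W, algebraMap W Ω w ∈ T)
    (p : B →ₐ[W] Ω) (S : Set B) (hS : Algebra.adjoin W S = ⊤) (hST : ∀ s ∈ S, p s ∈ T) :
    ∀ b, p b ∈ T := by
  intro b
  have hb : b ∈ Algebra.adjoin W S := by rw [hS]; exact Algebra.mem_top
  induction hb using Algebra.adjoin_induction with
  | mem x hx => exact hST x hx
  | algebraMap w => rw [AlgHom.commutes]; exact hT w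
  | add x y _ _ hx hy => rw [map_add]; exact T.add_mem hx hy
  | mul x y _ _ hx hy => rw [map_mul]; exact T.mul_mem hx hy

section Hub

variable {L Kb : Type*} [Field L] [Algebra W L] [Algebra O L] [IsScalarTower W O L]
  [IsLocalRing O] [NormedField Kb]

/-- **Descent of a centre to the hub rings.**  `jL : L →+* Ω` the embedding of the big field, `ι` the
`ℓ`-adic embedding of `Ω`; `O` is the unit ball of `L` (`hO`) and its maximal ideal is the open unit ball
(`hmax`).  If the centre `p = q'Ω` of the point `jL ∘ q` (integral: `hint`, congruent: `hcong`) takes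
values in `L` on a generating set of `B`, it descends to a point `q' : B →ₐ[W] O` with the same
reduction as `q`. -/
theorem exists_centre_descended (jL : L →+* Ω)
    (hjW : ∀ w : W, jL (algebraMap W L w) = algebraMap W Ω w)
    (hinj : Function.Injective (algebraMap O L)) (ι : Ω →+* Kb)
    (hO : ∀ x : L, ‖ι (jL x)‖ ≤ 1 → ∃ a : O, algebraMap O L a = x)
    (hmax : ∀ a : O, ‖ι (jL (algebraMap O L a))‖ < 1 → a ∈ IsLocalRing.maximalIdeal O)
    (q : B →ₐ[W] O) (p : B →ₐ[W] Ω) (hint : ∀ b, ‖ι (p b)‖ ≤ 1)
    (hcong : ∀ b, ‖ι (p b) - ι (jL (algebraMap O L (q b)))‖ < 1)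
    (S : Set B) (hS : Algebra.adjoin W S = ⊤) (hSL : ∀ s ∈ S, p s ∈ jL.range) :
    ∃ q' : B →ₐ[W] O, (∀ b, jL (algebraMap O L (q' b)) = p b) ∧
      ∀ b, IsLocalRing.residue O (q' b) = IsLocalRing.residue O (q b) := by
  let g : O →+* Ω := jL.comp (algebraMap O L)
  have hg : Function.Injective g := jL.injective.comp hinj
  have hgW : ∀ w : W, g (algebraMap W O w) = algebraMap W Ω w := by
    intro w
    show jL (algebraMap O L (algebraMap W O w)) = _
    rw [← IsScalarTower.algebraMap_apply W O L, hjW]
  have hL : ∀ b, p b ∈ jL.range :=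
    mem_of_generators jL.range (fun w => ⟨algebraMap W L w, hjW w⟩) p S hS hSL
  have hr : ∀ b, p b ∈ g.range := by
    intro b
    obtain ⟨x, hx⟩ := hL b
    obtain ⟨a, ha⟩ := hO x (by rw [hx]; exact hint b)
    exact ⟨a, by show jL (algebraMap O L a) = p b; rw [ha, hx]⟩
  obtain ⟨q', hq'⟩ := exists_descent g hg hgW p hr
  refine ⟨q', hq', fun b => ?_⟩
  rw [← sub_eq_zero, ← map_sub, IsLocalRing.residue_eq_zero_iff]
  apply hmax
  rw [map_sub, map_sub, map_sub]
  have := hq' b
  change jL (algebraMap O L (q' b)) = p b at this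
  rw [this]
  exact hcong b

omit [IsLocalRing O] [Algebra W L] [IsScalarTower W O L] in
/-- If `f : O →+* O` is intertwined by `g = jL ∘ algebraMap O L` with `ρ : Ω →+* Ω`, and `ρ` fixes the
values of `p`, then `f` fixes the values of the descended point. -/
theorem fixed_of_descended (jL : L →+* Ω) (hinj : Function.Injective (algebraMap O L))
    (f : O →+* O) (ρ : Ω →+* Ω)
    (hfρ : ∀ a : O, jL (algebraMap O L (f a)) = ρ (jL (algebraMap O L a)))
    (q' : B →ₐ[W] O) (p : B →ₐ[W] Ω) (hq' : ∀ b, jL (algebraMap O L (q' b)) = p b)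
    (hρ : ∀ b, ρ (p b) = p b) : ∀ b, f (q' b) = q' b := by
  intro b
  apply hinj
  apply jL.injective
  rw [hfρ, hq', hρ]

end Hub

end Fermat.Agent.T1.Centres92.Descend
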