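/-
T1A (S19), REDUCTION layer, brick R-g CENTRES (helper92), part 8: from a centre over `Ω = ℚ̄` to helper47's
`CentresClass47.HasCentre0/1` over the hub ring `O` (the valuation ring of the big field `L ⊂ Ω`).

`hasCentre0_of_descended`, `hasCentre1_of_descended` : let `q` be an `O`-point of chart `j`, `p` a centre of
`jL ∘ q` over `Ω` (integral, congruent to `q`), such that `L` contains the values of `p` on a generating set
of `B_j`; let `I` be a set of `W`-linear automorphisms of `O`, each of them induced (through `jL`) by a ring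
endomorphism `ρ` of `Ω` fixing the values of `p`.  Then `HasCentre_j O I q`.
-/
import Mathlib
import Fermat.Agent.T1.CentresClass47
import Fermat.Agent.T1.Centres92.Descend

set_option autoImplicit false

open TensorProduct

namespace Fermat.Agent.T1.Centres92.HasCentre92

open Fermat.Agent.Jac Fermat.Agent.T1.RedIface75 Fermat.Agent.T1.PtLine75
  Fermat.Agent.T1.CentresClass47 Fermat.Agent.T1.Centres92.Descend

universe u v w

variable {W B0 B1 : Type u} [CommRing W] [CommRing B0] [CommRing B1]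
  [Algebra W B0] [Algebra W B1]
variable (O : Type u) [CommRing O] [IsLocalRing O] [Algebra W O]
variable {L : Type u} [Field L] [Algebra W L] [Algebra O L] [IsScalarTower W O L]
variable {Ω : Type v} [Field Ω] [Algebra W Ω] {Kb : Type w} [NormedField Kb]

/-- Chart 0: a descended centre gives `HasCentre0`. -/
theorem hasCentre0_of_descended (I : Set (LinAut W O))
    (hinv : ∀ q' : B0 →ₐ[W] O, Module.Invertible (O ⊗[W] B0) (ptIdeal q'))
    (jL : L →+* Ω) (hjW : ∀ w : W, jL (algebraMap W L w) = algebraMap W Ω w)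
    (hinj : Function.Injective (algebraMap O L)) (ι : Ω →+* Kb)
    (hO : ∀ x : L, ‖ι (jL x)‖ ≤ 1 → ∃ a : O, algebraMap O L a = x)
    (hmax : ∀ a : O, ‖ι (jL (algebraMap O L a))‖ < 1 → a ∈ IsLocalRing.maximalIdeal O)
    (q : B0 →ₐ[W] O) (p : B0 →ₐ[W] Ω) (hint : ∀ b, ‖ι (p b)‖ ≤ 1)
    (hcong : ∀ b, ‖ι (p b) - ι (jL (algebraMap O L (q b)))‖ < 1)
    (S : Set B0) (hS : Algebra.adjoin W S = ⊤) (hSL : ∀ s ∈ S, p s ∈ jL.range)
    (hI : ∀ F ∈ I, ∃ ρ : Ω →+* Ω,
      (∀ a : O, jL (algebraMap O L (LinAut.f F a)) = ρ (jL (algebraMap O L a))) ∧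
      ∀ b, ρ (p b) = p b) :
    HasCentre0 O I q := by
  obtain ⟨q', hq', hred⟩ :=
    exists_centre_descended jL hjW hinj ι hO hmax q p hint hcong S hS hSL
  refine ⟨q', hinv q', hred, fun F hF => ?_⟩
  obtain ⟨ρ, hfρ, hρ⟩ := hI F hF
  exact fixed_of_descended jL hinj (LinAut.f F) ρ hfρ q' p hq' hρ

/-- Chart 1: a descended centre gives `HasCentre1`. -/
theorem hasCentre1_of_descended (I : Set (LinAut W O))
    (hinv : ∀ q' : B1 →ₐ[W] O, Module.Invertible (O ⊗[W] B1) (ptIdeal q'))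
    (jL : L →+* Ω) (hjW : ∀ w : W, jL (algebraMap W L w) = algebraMap W Ω w)
    (hinj : Function.Injective (algebraMap O L)) (ι : Ω →+* Kb)
    (hO : ∀ x : L, ‖ι (jL x)‖ ≤ 1 → ∃ a : O, algebraMap O L a = x)
    (hmax : ∀ a : O, ‖ι (jL (algebraMap O L a))‖ < 1 → a ∈ IsLocalRing.maximalIdeal O)
    (q : B1 →ₐ[W] O) (p : B1 →ₐ[W] Ω) (hint : ∀ b, ‖ι (p b)‖ ≤ 1)
    (hcong : ∀ b, ‖ι (p b) - ι (jL (algebraMap O L (q b)))‖ < 1)
    (S : Set B1) (hS : Algebra.adjoin W S = ⊤) (hSL : ∀ s ∈ S, p s ∈ jL.range)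
    (hI : ∀ F ∈ I, ∃ ρ : Ω →+* Ω,
      (∀ a : O, jL (algebraMap O L (LinAut.f F a)) = ρ (jL (algebraMap O L a))) ∧
      ∀ b, ρ (p b) = p b) :
    HasCentre1 O I q := by
  obtain ⟨q', hq', hred⟩ :=
    exists_centre_descended jL hjW hinj ι hO hmax q p hint hcong S hS hSL
  refine ⟨q', hinv q', hred, fun F hF => ?_⟩
  obtain ⟨ρ, hfρ, hρ⟩ := hI F hF
  exact fixed_of_descended jL hinj (LinAut.f F) ρ hfρ q' p hq' hρ

end Fermat.Agent.T1.Centres92.HasCentre92
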