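/-
T1A (S19), REDUCTION layer, brick R-g CENTRES (helper92), part 3: THE HORIZONTAL PRIME through a smooth
closed point of the special fibre.  Mathlib only.

`B` a domain, `ϖ ∈ B` (the image of the uniformiser) with `(ϖ)` prime, `n` a prime ideal containing `ϖ`,
different from `(ϖ)`, with a local parameter `s ∈ n`:  `∀ y ∈ n, ∃ d ∉ n, d * y ∈ (ϖ, s)`.
Then there is a prime `P` with `s ∈ P ≤ n` and `ϖ ∉ P` (`exists_horizontal_prime`): the generic point of
the horizontal curve `V(s)` through `n`.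

Proof: the multiplicative set `Σ = {ϖ^k d | d ∉ n}` is disjoint from `(s)` (if `s c = ϖ^(k+1) d` then
`c ∈ (ϖ)` because `(ϖ)` is prime and `s ∉ (ϖ)`; cancel `ϖ`), so a prime `P ⊇ (s)` disjoint from `Σ`
exists.
-/
import Mathlib

set_option autoImplicit false

namespace Fermat.Agent.T1.Centres92.Horizontal

variable {B : Type*} [CommRing B] [IsDomain B]

/-- the multiplicative set `{ϖ^k d | d ∉ n}`. -/
def sigma (ϖ : B) (n : Ideal B) [n.IsPrime] : Submonoid B where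
  carrier := {x | ∃ (k : ℕ) (d : B), d ∉ n ∧ x = ϖ ^ k * d}
  one_mem' := ⟨0, 1, fun h => (Ideal.IsPrime.ne_top ‹_›) ((Ideal.eq_top_iff_one n).mpr h), by simp⟩
  mul_mem' := by
    rintro x y ⟨k, d, hd, rfl⟩ ⟨l, e, he, rfl⟩
    refine ⟨k + l, d * e, fun h => ?_, by ring⟩
    rcases Ideal.IsPrime.mem_or_mem ‹_› h with h | h
    · exact hd h
    · exact he h

/-- the local parameter is not divisible by `ϖ`. -/
theorem s_not_mem (ϖ : B) (n : Ideal B) [n.IsPrime] (hϖn : ϖ ∈ n)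
    (hprime : (Ideal.span {ϖ}).IsPrime) (hne : n ≠ Ideal.span {ϖ})
    (s : B) (hloc : ∀ y ∈ n, ∃ d : B, d ∉ n ∧ d * y ∈ Ideal.span {ϖ, s}) :
    s ∉ Ideal.span {ϖ} := by
  intro hs
  apply hne
  apply le_antisymm
  · intro y hy
    obtain ⟨d, hd, hdy⟩ := hloc y hy
    have h1 : d * y ∈ Ideal.span {ϖ} := by
      have hle : Ideal.span {ϖ, s} ≤ Ideal.span {ϖ} := by
        rw [Ideal.span_le]
        rintro x (rfl | rfl)
        · exact Ideal.subset_span rfl
        · exact hs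
      exact hle hdy
    rcases hprime.mem_or_mem h1 with h | h
    · exfalso
      apply hd
      have hle : Ideal.span {ϖ} ≤ n := by
        rw [Ideal.span_le]
        rintro x rfl
        exact hϖn
      exact hle h
    · exact h
  · rw [Ideal.span_le]
    rintro x rfl
    exact hϖn

/-- `(s)` is disjoint from `Σ`. -/
theorem not_mem_sigma (ϖ : B) (hϖ0 : ϖ ≠ 0) (n : Ideal B) [n.IsPrime]
    (hprime : (Ideal.span {ϖ}).IsPrime) (s : B) (hs : s ∈ n) (hsϖ : s ∉ Ideal.span {ϖ}) :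
    ∀ (k : ℕ) (c d : B), d ∉ n → s * c ≠ ϖ ^ k * d := by
  intro k
  induction k with
  | zero =>
    intro c d hd h
    apply hd
    rw [pow_zero, one_mul] at h
    rw [← h]
    exact n.mul_mem_right c hs
  | succ k ih =>
    intro c d hd h
    have h1 : s * c ∈ Ideal.span {ϖ} := by
      rw [h]
      exact Ideal.mem_span_singleton'.mpr ⟨ϖ ^ k * d, by ring⟩
    rcases hprime.mem_or_mem h1 with h2 | h2
    · exact hsϖ h2
    · obtain ⟨c', rfl⟩ := Ideal.mem_span_singleton'.mp h2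
      apply ih c' d hd
      apply mul_left_cancel₀ hϖ0
      rw [pow_succ] at h
      linear_combination h

/-- **The horizontal prime.** -/
theorem exists_horizontal_prime (ϖ : B) (hϖ0 : ϖ ≠ 0) (n : Ideal B) [n.IsPrime] (hϖn : ϖ ∈ n)
    (hprime : (Ideal.span {ϖ}).IsPrime) (hne : n ≠ Ideal.span {ϖ})
    (s : B) (hs : s ∈ n) (hloc : ∀ y ∈ n, ∃ d : B, d ∉ n ∧ d * y ∈ Ideal.span {ϖ, s}) :
    ∃ P : Ideal B, P.IsPrime ∧ s ∈ P ∧ P ≤ n ∧ ϖ ∉ P ∧ P ≠ ⊥ := by
  have hsϖ := s_not_mem ϖ n hϖn hprime hne s hloc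
  have hdisj : Disjoint (Ideal.span {s} : Set B) (sigma ϖ n : Set B) := by
    rw [Set.disjoint_left]
    rintro x hx ⟨k, d, hd, rfl⟩
    obtain ⟨c, hc⟩ := Ideal.mem_span_singleton'.mp hx
    exact not_mem_sigma ϖ hϖ0 n hprime s hs hsϖ k c d hd (by rw [← hc]; ring)
  obtain ⟨P, hP, hsP, hPdisj⟩ := Ideal.exists_le_prime_disjoint (Ideal.span {s}) (sigma ϖ n) hdisj
  have hsP' : s ∈ P := hsP (Ideal.subset_span rfl)
  refine ⟨P, hP, hsP', ?_, ?_, ?_⟩
  · intro x hx
    by_contra hxn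
    exact Set.disjoint_left.mp hPdisj hx ⟨0, x, hxn, by simp⟩
  · intro hϖP
    have h1 : (1 : B) ∉ n := fun h => (Ideal.IsPrime.ne_top ‹_›) ((Ideal.eq_top_iff_one n).mpr h)
    exact Set.disjoint_left.mp hPdisj hϖP ⟨1, 1, h1, by simp⟩
  · intro hbot
    rw [hbot, Ideal.mem_bot] at hsP'
    apply hsϖ
    rw [hsP']
    exact Ideal.zero_mem _

end Fermat.Agent.T1.Centres92.Horizontal
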