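/-
T1A (S19), REDUCTION layer, brick R-g CENTRES (helper92), part 1: LIFTING POINTS INTO A VALUATION RING
OF AN ALGEBRAICALLY CLOSED FIELD, with PRESCRIBED REDUCTION.  Mathlib only.

`lift_of_flat_of_algebraic`: `W` a commutative ring, `A` a valuation ring (domain) which is a
`W`-algebra and whose fraction field `Ω` is algebraically closed, `R` a flat `W`-algebra which is
algebraic over `W`, and `ι : R →ₐ[W] κ(A)` a "point of the special fibre".  Then there is a
`W`-algebra homomorphism `φ : R → A` reducing to `ι`.

No Hensel, no Galois theory, no finiteness: put `T := A ⊗[W] R` (flat over `A`), `M := ker (T → κ(A))`;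
going-down for the flat extension `A → T` gives a prime `Q ≤ M` with `Q ∩ A = 0`; the domain `T/Q` is
algebraic over `A`, so it embeds into `Ω` over `A`; its image is a ring between `A` and `Ω` in which the
image of `M` is a proper ideal containing `𝔪_A`, hence the image is `A` itself (a valuation ring is
maximal for domination).  The resulting `A`-algebra map `Φ : T → A` has kernel `Q ≤ M`, so it reduces to
the given map `T → κ(A)`.
-/
import Mathlib

set_option autoImplicit false

open TensorProduct

namespace Fermat.Agent.T1.Centres92.Lift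

variable {W : Type*} [CommRing W]
variable {A : Type*} [CommRing A] [IsDomain A] [ValuationRing A] [Algebra W A]
variable {R : Type*} [CommRing R] [Algebra W R]

/-- An element of `Ω` which, together with `A`, generates a ring in which `𝔪_A` stays proper, lies in
`A`.  Precise form used below: `x ∈ Ω`; if `x⁻¹ = a ∈ 𝔪_A` is impossible, then `x ∈ A`. -/
theorem mem_range_of_not_inv_mem {Ω : Type*} [Field Ω] [Algebra A Ω] [IsFractionRing A Ω] (x : Ω)
    (h : ∀ a : A, a ∈ IsLocalRing.maximalIdeal A → algebraMap A Ω a * x ≠ 1) :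
    x ∈ (algebraMap A Ω).range := by
  rcases ValuationRing.isInteger_or_isInteger A x with ⟨a, ha⟩ | ⟨a, ha⟩
  · exact ⟨a, ha⟩
  · by_cases hx : x = 0
    · exact ⟨0, by rw [hx, map_zero]⟩
    · by_cases hu : IsUnit a
      · obtain ⟨u, rfl⟩ := hu
        refine ⟨((u⁻¹ : Aˣ) : A), ?_⟩
        have h1 : algebraMap A Ω (u : A) * x = 1 := by rw [ha, inv_mul_cancel₀ hx]
        have h2 : algebraMap A Ω ((u⁻¹ : Aˣ) : A) * algebraMap A Ω (u : A) = 1 := by
          rw [← map_mul, Units.inv_mul, map_one]
        calc algebraMap A Ω ((u⁻¹ : Aˣ) : A)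
            = algebraMap A Ω ((u⁻¹ : Aˣ) : A) * (algebraMap A Ω (u : A) * x) := by rw [h1, mul_one]
          _ = x := by rw [← mul_assoc, h2, one_mul]
      · exfalso
        refine h a ((IsLocalRing.mem_maximalIdeal a).mpr hu) ?_
        rw [ha, inv_mul_cancel₀ hx]

variable [Module.Flat W R] [Algebra.IsAlgebraic W R]

/-- **Lifting a point of the special fibre to a point with values in the valuation ring `A`** of an
algebraically closed field. -/
theorem lift_of_flat_of_algebraic (Ω : Type*) [Field Ω] [Algebra A Ω] [IsFractionRing A Ω]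
    [IsAlgClosed Ω] (hWA : Function.Injective (algebraMap W A))
    (ι : R →ₐ[W] IsLocalRing.ResidueField A) :
    ∃ φ : R →ₐ[W] A, ∀ x : R, IsLocalRing.residue A (φ x) = ι x := by
  classical
  -- the tensor product and the point of its special fibre
  let κ := IsLocalRing.ResidueField A
  let μ : A ⊗[W] R →ₐ[A] κ :=
    Algebra.TensorProduct.lift (Algebra.ofId A κ) ι (fun _ _ => Commute.all _ _)
  have hμ1 : ∀ x : R, μ (1 ⊗ₜ x) = ι x := fun x => by
    simp [μ]
  have hμsurj : Function.Surjective μ := fun y => by
    obtain ⟨a, rfl⟩ := IsLocalRing.residue_surjective y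
    exact ⟨algebraMap A _ a, by rw [AlgHom.commutes]; rfl⟩
  let M : Ideal (A ⊗[W] R) := RingHom.ker μ.toRingHom
  have hMmax : M.IsMaximal := RingHom.ker_isMaximal_of_surjective μ.toRingHom hμsurj
  have hMprime : M.IsPrime := hMmax.isPrime
  have hmemM : ∀ t, t ∈ M ↔ μ t = 0 := fun t => RingHom.mem_ker
  -- `M` lies over `𝔪_A`
  have hMover : M.LiesOver (IsLocalRing.maximalIdeal A) := by
    constructor
    ext a
    rw [Ideal.under_def, Ideal.mem_comap, hmemM, AlgHom.commutes]
    exact (IsLocalRing.residue_eq_zero_iff a).symm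
  -- going down to `0`
  have hbot : (⊥ : Ideal A).IsPrime := Ideal.isPrime_bot
  obtain ⟨Q, hQM, hQprime, hQover⟩ :=
    Ideal.exists_ideal_le_liesOver_of_le (p := (⊥ : Ideal A)) (q := IsLocalRing.maximalIdeal A) M
      bot_le
  -- the domain `D = T / Q`
  let D := (A ⊗[W] R) ⧸ Q
  have hDdom : IsDomain D := Ideal.Quotient.isDomain Q
  have hinj : Function.Injective (algebraMap A D) := by
    rw [injective_iff_map_eq_zero]
    intro a ha
    have h1 : a ∈ Q.under A := by
      rw [Ideal.under_def, Ideal.mem_comap]
      exact Ideal.Quotient.eq_zero_iff_mem.mp ha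
    rw [← hQover.over] at h1
    exact h1
  have hTF : Module.IsTorsionFree A D := Module.isTorsionFree_iff_algebraMap_injective.mpr hinj
  have hTFΩ : Module.IsTorsionFree A Ω :=
    Module.isTorsionFree_iff_algebraMap_injective.mpr (IsFractionRing.injective A Ω)
  -- `D` is algebraic over `A`
  have hT : ∀ t : A ⊗[W] R, IsAlgebraic A t := by
    intro t
    induction t using TensorProduct.induction_on with
    | zero => exact isAlgebraic_zero
    | add x y hx hy => exact hx.add hy
    | tmul a r =>
      have h1 : IsAlgebraic W r := Algebra.IsAlgebraic.isAlgebraic r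
      have h2 : IsAlgebraic W ((1 : A) ⊗ₜ[W] r) :=
        h1.algHom (Algebra.TensorProduct.includeRight : R →ₐ[W] A ⊗[W] R)
      have h3 : IsAlgebraic A ((1 : A) ⊗ₜ[W] r) := h2.extendScalars hWA
      have h4 : a ⊗ₜ[W] r = a • ((1 : A) ⊗ₜ[W] r) := by
        rw [TensorProduct.smul_tmul', smul_eq_mul, mul_one]
      rw [h4]
      exact h3.smul a
  have hDalg : Algebra.IsAlgebraic A D := by
    constructor
    intro d
    obtain ⟨t, rfl⟩ := Ideal.Quotient.mk_surjective d
    exact (hT t).algHom (Ideal.Quotient.mkₐ A Q)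
  -- embed `D` into `Ω`
  let ψ : D →ₐ[A] Ω := IsAlgClosed.lift
  have hψinj : Function.Injective ψ := by
    rw [injective_iff_map_eq_zero]
    intro d hd
    by_contra hd0
    have h1 : (RingHom.ker ψ.toRingHom).comap (algebraMap A D) ≠ ⊥ :=
      Ideal.comap_ne_bot_of_algebraic_mem hd0 (RingHom.mem_ker.mpr hd)
        (Algebra.IsAlgebraic.isAlgebraic d)
    apply h1
    rw [eq_bot_iff]
    intro a ha
    rw [Ideal.mem_comap, RingHom.mem_ker] at ha
    have h2 : algebraMap A Ω a = 0 := by
      have := ψ.commutes a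
      rw [← this]
      exact ha
    rw [Ideal.mem_bot]
    exact (IsFractionRing.injective A Ω) (by rw [h2, map_zero])
  -- the image of `D` in `Ω` is `A`
  have hMD : ∀ a : A, a ∈ IsLocalRing.maximalIdeal A → ∀ d : D, algebraMap A D a * d ≠ 1 := by
    intro a ha d h1
    obtain ⟨t, rfl⟩ := Ideal.Quotient.mk_surjective d
    have h2 : algebraMap A (A ⊗[W] R) a * t - 1 ∈ Q := by
      rw [← Ideal.Quotient.eq_zero_iff_mem, map_sub, map_mul, map_one, sub_eq_zero]
      exact h1
    have h3 : algebraMap A (A ⊗[W] R) a ∈ M := by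
      have := hMover.over
      have h4 : a ∈ M.under A := by rw [← this]; exact ha
      exact h4
    have h5 : (1 : A ⊗[W] R) ∈ M := by
      have h6 := M.sub_mem (M.mul_mem_right t h3) (hQM h2)
      simpa using h6
    exact hMmax.ne_top ((Ideal.eq_top_iff_one M).mpr h5)
  have hrange : ∀ d : D, ψ d ∈ (algebraMap A Ω).range := by
    intro d
    apply mem_range_of_not_inv_mem
    intro a ha h1
    apply hMD a ha d
    apply hψinj
    rw [map_mul, map_one, ψ.commutes]
    exact h1
  -- the resulting map `T → A`
  choose Φ hΦ using fun t : A ⊗[W] R => hrange (Ideal.Quotient.mk Q t)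
  have hAinj : Function.Injective (algebraMap A Ω) := IsFractionRing.injective A Ω
  have hΦmk : ∀ t, algebraMap A Ω (Φ t) = ψ (Ideal.Quotient.mk Q t) := hΦ
  have hΦadd : ∀ t t', Φ (t + t') = Φ t + Φ t' := fun t t' => hAinj (by
    rw [map_add, hΦmk, hΦmk, hΦmk, map_add, map_add])
  have hΦmul : ∀ t t', Φ (t * t') = Φ t * Φ t' := fun t t' => hAinj (by
    rw [map_mul, hΦmk, hΦmk, hΦmk, map_mul, map_mul])
  have hΦalg : ∀ a : A, Φ (algebraMap A _ a) = a := fun a => hAinj (by
    rw [hΦmk]
    exact ψ.commutes a)
  have hΦker : ∀ t, Φ t = 0 → t ∈ Q := by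
    intro t ht
    rw [← Ideal.Quotient.eq_zero_iff_mem]
    apply hψinj
    rw [← hΦmk, ht, map_zero, map_zero]
  -- reduction of `Φ` is `μ`
  have hred : ∀ t, IsLocalRing.residue A (Φ t) = μ t := by
    intro t
    have h1 : t - algebraMap A _ (Φ t) ∈ M := by
      apply hQM
      apply hΦker
      have : Φ (t - algebraMap A _ (Φ t)) + Φ (algebraMap A _ (Φ t)) = Φ t := by
        rw [← hΦadd, sub_add_cancel]
      rw [hΦalg] at this
      exact add_eq_right.mp this
    rw [hmemM, map_sub, sub_eq_zero, AlgHom.commutes] at h1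
    rw [h1]
    rfl
  -- the point
  refine ⟨{ toFun := fun x => Φ (1 ⊗ₜ x)
            map_one' := by
              have : (1 : A ⊗[W] R) = algebraMap A _ 1 := by rw [map_one]
              show Φ (1 ⊗ₜ[W] (1 : R)) = 1
              rw [← Algebra.TensorProduct.one_def, this, hΦalg]
            map_mul' := fun x y => by
              show Φ (1 ⊗ₜ[W] (x * y)) = _
              rw [← hΦmul, Algebra.TensorProduct.tmul_mul_tmul, mul_one]
            map_zero' := by
              show Φ (1 ⊗ₜ[W] (0 : R)) = 0
              rw [TensorProduct.tmul_zero]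
              have : (0 : A ⊗[W] R) = algebraMap A _ 0 := by rw [map_zero]
              rw [this, hΦalg]
            map_add' := fun x y => by
              show Φ (1 ⊗ₜ[W] (x + y)) = _
              rw [TensorProduct.tmul_add, hΦadd]
            commutes' := fun w => by
              show Φ (1 ⊗ₜ[W] (algebraMap W R w)) = algebraMap W A w
              have : (1 : A) ⊗ₜ[W] (algebraMap W R w) = algebraMap A (A ⊗[W] R) (algebraMap W A w) :=
                ((Algebra.TensorProduct.includeRight : R →ₐ[W] A ⊗[W] R).commutes w).trans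
                  (IsScalarTower.algebraMap_apply W A (A ⊗[W] R) w)
              rw [this, hΦalg] }, fun x => ?_⟩
  show IsLocalRing.residue A (Φ (1 ⊗ₜ x)) = ι x
  rw [hred, hμ1]

end Fermat.Agent.T1.Centres92.Lift
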