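/-
T1A (S19), REDUCTION layer, brick R-g CENTRES (helper92), part 2: RIGIDITY of the horizontal point
through a smooth closed point of the special fibre ("exactly one geometric zero of the local parameter
`s` reduces to `x̄`").  Mathlib only, elementary (no Kähler differentials, no completions).

`W` a ring with an element `π`, `B` a `W`-algebra, `n` an ideal of `B` (a closed point of the special
fibre) with a local parameter `s`:  `hloc : ∀ y ∈ n, ∃ d ∉ n, d * y ∈ (π, s)`, and separable residue
field in the elementary form `hsep : ∀ c, ∃ G ∈ W[X], G(c) ∈ n ∧ G'(c) ∉ n`.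
Two `W`-algebra maps `P₁ P₂ : B → O` which kill `s`, send the complement of `n` to units, are congruent
modulo an ideal `J` with `1 + J ⊆ Oˣ`, into a `π`-adically separated ring `O`, are EQUAL.

Consequence used for the centres: an automorphism `σ` of `O` over `W` which is trivial modulo `J`
("inertial") fixes such a point: take `P₂ = σ ∘ P₁`.
-/
import Mathlib

set_option autoImplicit false

open Polynomial

namespace Fermat.Agent.T1.Centres92.Rigid

variable {W : Type*} [CommRing W] (π : W) {B : Type*} [CommRing B] [Algebra W B]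
variable {O : Type*} [CommRing O] [Algebra W O]

/-- Taylor expansion to first order with a unit slope: if `G'(x)` is a unit and `1 + J ⊆ Oˣ`, `h ∈ J`,
then `G(x + h) - G(x) = h * w` with `w` a unit. -/
theorem exists_unit_eval_sub (J : Ideal O) (hJ : ∀ x ∈ J, IsUnit (1 + x)) (G : W[X]) (x h : O)
    (hh : h ∈ J) (hG' : IsUnit (aeval x (derivative G))) :
    ∃ w : O, IsUnit w ∧ aeval (x + h) G - aeval x G = h * w := by
  obtain ⟨k, hk⟩ := Polynomial.binomExpansion (G.map (algebraMap W O)) x h
  rw [Polynomial.eval_map_algebraMap, Polynomial.eval_map_algebraMap, Polynomial.derivative_map,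
    Polynomial.eval_map_algebraMap] at hk
  obtain ⟨u, hu⟩ := hG'
  refine ⟨aeval x (derivative G) + k * h, ?_, by rw [hk]; ring⟩
  have h1 : aeval x (derivative G) + k * h = (u : O) * (1 + ((u⁻¹ : Oˣ) : O) * k * h) := by
    rw [← hu, mul_add, mul_one, ← mul_assoc, ← mul_assoc, Units.mul_inv, one_mul]
  rw [h1]
  exact u.isUnit.mul (hJ _ (J.mul_mem_left _ hh))

/-- **Rigidity.** -/
theorem rigid (n : Ideal B) (s : B)
    (hloc : ∀ y ∈ n, ∃ d : B, d ∉ n ∧ d * y ∈ Ideal.span {algebraMap W B π, s})
    (hsep : ∀ c : B, ∃ G : W[X], aeval c G ∈ n ∧ aeval c (derivative G) ∉ n)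
    (J : Ideal O) (hJ : ∀ x ∈ J, IsUnit (1 + x))
    (hsepd : ∀ x : O, (∀ k : ℕ, ∃ y, x = algebraMap W O π ^ k * y) → x = 0)
    (P₁ P₂ : B →ₐ[W] O) (h1s : P₁ s = 0) (h2s : P₂ s = 0)
    (h1u : ∀ d, d ∉ n → IsUnit (P₁ d)) (h2u : ∀ d, d ∉ n → IsUnit (P₂ d))
    (hJ12 : ∀ c, P₁ c - P₂ c ∈ J) : P₁ = P₂ := by
  have key : ∀ k : ℕ, ∀ c : B, ∃ y, P₁ c - P₂ c = algebraMap W O π ^ k * y := by
    intro k
    induction k with
    | zero => intro c; exact ⟨P₁ c - P₂ c, by rw [pow_zero, one_mul]⟩
    | succ k ih =>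
      intro c
      obtain ⟨G, hGn, hG'n⟩ := hsep c
      obtain ⟨d, hd, hmem⟩ := hloc _ hGn
      obtain ⟨a, b, hab⟩ := Ideal.mem_span_pair.mp hmem
      -- apply the two points
      have e1 : P₁ a * algebraMap W O π = P₁ d * aeval (P₁ c) G := by
        have := congrArg P₁ hab
        rw [map_add, map_mul, map_mul, h1s, mul_zero, add_zero, AlgHom.commutes, map_mul,
          ← Polynomial.aeval_algHom_apply] at this
        exact this
      have e2 : P₂ a * algebraMap W O π = P₂ d * aeval (P₂ c) G := by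
        have := congrArg P₂ hab
        rw [map_add, map_mul, map_mul, h2s, mul_zero, add_zero, AlgHom.commutes, map_mul,
          ← Polynomial.aeval_algHom_apply] at this
        exact this
      -- Taylor
      have hG'u : IsUnit (aeval (P₂ c) (derivative G)) := by
        rw [Polynomial.aeval_algHom_apply]
        exact h2u _ hG'n
      obtain ⟨w, hw, hT⟩ := exists_unit_eval_sub J hJ G (P₂ c) (P₁ c - P₂ c) (hJ12 c) hG'u
      rw [add_sub_cancel] at hT
      -- induction hypothesis for `a` and `d`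
      obtain ⟨ya, hya⟩ := ih a
      obtain ⟨yd, hyd⟩ := ih d
      obtain ⟨u1, hu1⟩ := h1u d hd
      obtain ⟨u2, hu2⟩ := h2u d hd
      obtain ⟨uw, huw⟩ := hw
      have hmain : (u1 : O) * u2 * uw * (P₁ c - P₂ c) =
          algebraMap W O π ^ (k + 1) * (P₂ d * ya - P₂ a * yd) := by
        have h3 : (u1 : O) * u2 * (aeval (P₁ c) G - aeval (P₂ c) G) =
            algebraMap W O π * (P₂ d * (P₁ a - P₂ a) - P₂ a * (P₁ d - P₂ d)) := by
          rw [hu1, hu2]
          have : P₁ d * P₂ d * (aeval (P₁ c) G - aeval (P₂ c) G) =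
              P₂ d * (P₁ d * aeval (P₁ c) G) - P₁ d * (P₂ d * aeval (P₂ c) G) := by ring
          rw [this, ← e1, ← e2]
          ring
        rw [hT, hya, hyd] at h3
        rw [huw, pow_succ]
        linear_combination h3
      refine ⟨((u1 * u2 * uw)⁻¹ : Oˣ) * (P₂ d * ya - P₂ a * yd), ?_⟩
      have : P₁ c - P₂ c = ((u1 * u2 * uw)⁻¹ : Oˣ) * ((u1 : O) * u2 * uw * (P₁ c - P₂ c)) := by
        rw [← mul_assoc, ← Units.val_mul, ← Units.val_mul, ← Units.val_mul, inv_mul_cancel,
          Units.val_one, one_mul]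
      rw [this, hmain]
      ring
  ext c
  have := hsepd (P₁ c - P₂ c) (fun k => key k c)
  exact sub_eq_zero.mp this

end Fermat.Agent.T1.Centres92.Rigid
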