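/-
T1A (S19), REDUCTION layer, brick R-g CENTRES (helper92), part 4: THE CENTRES THEOREM, abstract form.

`W` a DVR with uniformiser `π`; `Av` a valuation ring (domain) over `W`, algebraic over `W`, whose
fraction field `Ω` is algebraically closed (`Av` = valuation ring of `ℚ̄` over `v`); `B` a domain over
`W` (a chart of the smooth model) such that
 * `(π)` is a prime of `B`, not maximal;
 * smoothness: at every maximal ideal `n ∋ π` there is `s ∈ n` with `∀ y ∈ n, ∃ d ∉ n, d y ∈ (π, s)`;
 * the generic fibre is a curve: `B ⧸ P` is algebraic over `W` for every nonzero prime `P ∌ π`;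
 * residue fields are separable, in the elementary form `∀ c, ∃ G ∈ W[X], G(c) ∈ n ∧ G'(c) ∉ n`.

`exists_centre`: every point `q : B →ₐ[W] Av` has a CENTRE `q' : B →ₐ[W] Av` with the same reduction
and fixed by every `W`-algebra endomorphism `σ` of `Av` which is trivial modulo `𝔪` ("inertia").
-/
import Mathlib
import Fermat.Agent.T1.Centres92.Lift
import Fermat.Agent.T1.Centres92.Rigid
import Fermat.Agent.T1.Centres92.Horizontal

set_option autoImplicit false

open Polynomial

noncomputable section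

namespace Fermat.Agent.T1.Centres92.Main

section DVR

variable {W : Type*} [CommRing W] [IsDomain W] [IsDiscreteValuationRing W]

/-- A nonzero polynomial over a DVR is a power of the uniformiser times a polynomial with a unit
coefficient. -/
theorem exists_primitive_aux {π : W} (hπ : Irreducible π) :
    ∀ (k : ℕ) (p : W[X]), p ≠ 0 → (∃ u : Wˣ, p.leadingCoeff = u * π ^ k) →
      ∃ (m : ℕ) (p0 : W[X]), p = C (π ^ m) * p0 ∧ ∃ i, IsUnit (p0.coeff i)
  | 0, p, _, ⟨u, hu⟩ =>
    ⟨0, p, by simp, p.natDegree, by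
      rw [coeff_natDegree, hu, pow_zero, mul_one]; exact u.isUnit⟩
  | k + 1, p, hp, ⟨u, hu⟩ => by
    by_cases h : ∀ i, π ∣ p.coeff i
    · obtain ⟨p', rfl⟩ := (Polynomial.C_dvd_iff_dvd_coeff π p).mpr h
      have hp' : p' ≠ 0 := right_ne_zero_of_mul hp
      have hlc : p'.leadingCoeff = u * π ^ k := by
        rw [leadingCoeff_mul, leadingCoeff_C, pow_succ] at hu
        apply mul_left_cancel₀ hπ.ne_zero
        linear_combination hu
      obtain ⟨m, p0, hp0, i, hi⟩ := exists_primitive_aux hπ k p' hp' ⟨u, hlc⟩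
      exact ⟨m + 1, p0, by rw [hp0, pow_succ, C_mul]; ring, i, hi⟩
    · obtain ⟨i, hi⟩ := not_forall.mp h
      refine ⟨0, p, by simp, i, ?_⟩
      rw [← IsLocalRing.notMem_maximalIdeal, hπ.maximalIdeal_eq, Ideal.mem_span_singleton]
      exact hi

theorem exists_primitive {π : W} (hπ : Irreducible π) (p : W[X]) (hp : p ≠ 0) :
    ∃ (m : ℕ) (p0 : W[X]), p = C (π ^ m) * p0 ∧ ∃ i, IsUnit (p0.coeff i) := by
  obtain ⟨k, u, hu⟩ := IsDiscreteValuationRing.eq_unit_mul_pow_irreducible
    (leadingCoeff_ne_zero.mpr hp) hπ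
  exact exists_primitive_aux hπ k p hp ⟨u, hu⟩

end DVR

section Main

variable {W : Type*} [CommRing W] [IsDomain W] [IsDiscreteValuationRing W]
variable {Av : Type*} [CommRing Av] [IsDomain Av] [ValuationRing Av] [Algebra W Av]
variable {B : Type*} [CommRing B] [IsDomain B] [Algebra W B]

/-- the reduction ideal of a point. -/
def redIdeal (q : B →ₐ[W] Av) : Ideal B :=
  RingHom.ker ((IsLocalRing.residue Av).comp q.toRingHom)

theorem mem_redIdeal (q : B →ₐ[W] Av) (b : B) :
    b ∈ redIdeal q ↔ q b ∈ IsLocalRing.maximalIdeal Av := by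
  rw [redIdeal, RingHom.mem_ker]
  exact IsLocalRing.residue_eq_zero_iff _

instance redIdeal_isPrime (q : B →ₐ[W] Av) : (redIdeal q).IsPrime :=
  RingHom.ker_isPrime _

/-- elements of `Av` are algebraic over the residue field of `W` modulo `𝔪`: every `a` is killed
modulo nothing (exactly) by a polynomial over `W` with a unit coefficient. -/
theorem exists_unit_coeff_aeval_eq_zero [Algebra.IsAlgebraic W Av] {π : W} (hπ : Irreducible π)
    (hinj : Function.Injective (algebraMap W Av)) (a : Av) :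
    ∃ p0 : W[X], (∃ i, IsUnit (p0.coeff i)) ∧ aeval a p0 = 0 := by
  obtain ⟨p, hp, hpa⟩ := Algebra.IsAlgebraic.isAlgebraic (R := W) a
  obtain ⟨m, p0, rfl, hi⟩ := exists_primitive hπ p hp
  refine ⟨p0, hi, ?_⟩
  rw [map_mul, aeval_C] at hpa
  rcases mul_eq_zero.mp hpa with h | h
  · exfalso
    have : π ^ m = 0 := hinj (by rw [h, map_zero])
    exact pow_ne_zero m hπ.ne_zero this
  · exact h

/-- **the reduction ideal of a point is maximal.** -/
theorem redIdeal_isMaximal [Algebra.IsAlgebraic W Av] {π : W} (hπ : Irreducible π)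
    (hinj : Function.Injective (algebraMap W Av))
    (hπA : algebraMap W Av π ∈ IsLocalRing.maximalIdeal Av) (q : B →ₐ[W] Av) :
    (redIdeal q).IsMaximal := by
  classical
  set n := redIdeal q with hn
  have hπn : algebraMap W B π ∈ n := by
    rw [mem_redIdeal, AlgHom.commutes]
    exact hπA
  -- the residue field `k` of `W` acts on `D = B / n`
  let k := IsLocalRing.ResidueField W
  let D := B ⧸ n
  have hker : ∀ w ∈ IsLocalRing.maximalIdeal W, algebraMap W D w = 0 := by
    intro w hw
    rw [hπ.maximalIdeal_eq, Ideal.mem_span_singleton] at hw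
    obtain ⟨w', rfl⟩ := hw
    rw [map_mul, IsScalarTower.algebraMap_apply W B D, Ideal.Quotient.algebraMap_eq,
      Ideal.Quotient.eq_zero_iff_mem.mpr hπn, zero_mul]
  letI : Algebra k D := (Ideal.Quotient.lift (IsLocalRing.maximalIdeal W) (algebraMap W D)
    hker).toAlgebra
  have hkD : ∀ w : W, algebraMap k D (IsLocalRing.residue W w) = algebraMap W D w := fun w => rfl
  rw [Ideal.Quotient.maximal_ideal_iff_isField_quotient]
  refine ⟨⟨0, 1, zero_ne_one⟩, mul_comm, ?_⟩
  intro d hd
  have hunit : IsUnit d := by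
    refine IsIntegral.isUnit (R := k) ?_ hd
    obtain ⟨c, rfl⟩ := Ideal.Quotient.mk_surjective d
    obtain ⟨p0, ⟨i, hi⟩, hp0⟩ := exists_unit_coeff_aeval_eq_zero hπ hinj (q c)
    apply IsAlgebraic.isIntegral
    refine ⟨p0.map (IsLocalRing.residue W), ?_, ?_⟩
    · intro h0
      have h1 : (p0.map (IsLocalRing.residue W)).coeff i = 0 := by rw [h0, coeff_zero]
      rw [coeff_map] at h1
      have h2 : p0.coeff i ∈ IsLocalRing.maximalIdeal W := (IsLocalRing.residue_eq_zero_iff _).mp h1
      exact (IsLocalRing.mem_maximalIdeal _).mp h2 hi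
    · -- `aeval c̄ (p0 mod π) = image of aeval c p0`, and `aeval c p0 ∈ ker q ⊆ n`
      have h3 : aeval c p0 ∈ n := by
        rw [mem_redIdeal, ← Polynomial.aeval_algHom_apply, hp0]
        exact Ideal.zero_mem _
      have h4 : aeval (Ideal.Quotient.mk n c) (p0.map (IsLocalRing.residue W)) =
          Ideal.Quotient.mk n (aeval c p0) := by
        rw [aeval_def, eval₂_map, aeval_def, Polynomial.hom_eval₂]
        congr 1
      rw [h4]
      exact Ideal.Quotient.eq_zero_iff_mem.mpr h3
  obtain ⟨u, rfl⟩ := hunit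
  exact ⟨((u⁻¹ : Dˣ) : D), Units.mul_inv u⟩

/-- `⋂ π^k Av = 0`: `Av` is algebraic over the DVR `W`. -/
theorem eq_zero_of_forall_pow_dvd [Algebra.IsAlgebraic W Av] {π : W} (hπ : Irreducible π)
    (hπA : algebraMap W Av π ∈ IsLocalRing.maximalIdeal Av) (x : Av)
    (hx : ∀ k : ℕ, ∃ y, x = algebraMap W Av π ^ k * y) : x = 0 := by
  by_contra hx0
  obtain ⟨r, hr0, hdvd⟩ := (Algebra.IsAlgebraic.isAlgebraic (R := W) x).exists_nonzero_dvd
    (mem_nonZeroDivisors_of_ne_zero hx0)
  obtain ⟨m, u, rfl⟩ := IsDiscreteValuationRing.eq_unit_mul_pow_irreducible hr0 hπ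
  obtain ⟨z, hz⟩ := hdvd
  obtain ⟨y, hy⟩ := hx (m + 1)
  -- `u π^m = x z = π^(m+1) y z`
  set ϖ := algebraMap W Av π with hϖ
  have hu : IsUnit (algebraMap W Av (u : W)) := (u.isUnit).map _
  obtain ⟨v, hv⟩ := hu
  have h1 : (v : Av) * ϖ ^ m = ϖ ^ m * (ϖ * (y * z)) := by
    have : algebraMap W Av ((u : W) * π ^ m) = x * z := hz
    rw [map_mul, map_pow, ← hv, hy] at this
    rw [this, pow_succ]
    ring
  have hϖ0 : ϖ ≠ 0 := by
    intro h0
    rw [h0, zero_pow (Nat.succ_ne_zero m), zero_mul] at hy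
    exact hx0 hy
  have h2 : (v : Av) = ϖ * (y * z) := by
    apply mul_left_cancel₀ (pow_ne_zero m hϖ0)
    rw [← h1, mul_comm]
  have h3 : (v : Av) ∈ IsLocalRing.maximalIdeal Av := by
    rw [h2]
    exact Ideal.mul_mem_right _ _ hπA
  exact (IsLocalRing.mem_maximalIdeal _).mp h3 v.isUnit

/-- **The centres theorem, abstract form.** -/
theorem exists_centre [Algebra.IsAlgebraic W Av] {π : W} (hπ : Irreducible π)
    (Ω : Type*) [Field Ω] [Algebra Av Ω] [IsFractionRing Av Ω] [IsAlgClosed Ω]
    (hinj : Function.Injective (algebraMap W Av))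
    (hπA : algebraMap W Av π ∈ IsLocalRing.maximalIdeal Av)
    (hπ0 : algebraMap W B π ≠ 0)
    (hprime : (Ideal.span {algebraMap W B π}).IsPrime)
    (hne : ∀ n : Ideal B, n.IsMaximal → algebraMap W B π ∈ n →
      n ≠ Ideal.span {algebraMap W B π})
    (hsmooth : ∀ n : Ideal B, n.IsMaximal → algebraMap W B π ∈ n →
      ∃ s ∈ n, ∀ y ∈ n, ∃ d : B, d ∉ n ∧ d * y ∈ Ideal.span {algebraMap W B π, s})
    (halg : ∀ P : Ideal B, P.IsPrime → P ≠ ⊥ → algebraMap W B π ∉ P →
      Algebra.IsAlgebraic W (B ⧸ P))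
    (hsep : ∀ n : Ideal B, n.IsMaximal → algebraMap W B π ∈ n →
      ∀ c : B, ∃ G : W[X], aeval c G ∈ n ∧ aeval c (derivative G) ∉ n)
    (q : B →ₐ[W] Av) :
    ∃ q' : B →ₐ[W] Av, (∀ b, q' b - q b ∈ IsLocalRing.maximalIdeal Av) ∧
      ∀ σ : Av →ₐ[W] Av, (∀ a, σ a - a ∈ IsLocalRing.maximalIdeal Av) → ∀ b, σ (q' b) = q' b := by
  classical
  set n := redIdeal q with hn
  have hnmax : n.IsMaximal := redIdeal_isMaximal hπ hinj hπA q
  have hnprime : n.IsPrime := hnmax.isPrime
  have hπn : algebraMap W B π ∈ n := by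
    rw [mem_redIdeal, AlgHom.commutes]
    exact hπA
  obtain ⟨s, hs, hloc⟩ := hsmooth n hnmax hπn
  obtain ⟨P, hP, hsP, hPn, hπP, hPbot⟩ := Horizontal.exists_horizontal_prime (algebraMap W B π) hπ0 n
    hπn hprime (hne n hnmax hπn) s hs hloc
  -- the horizontal curve `C = B / P`
  let C := B ⧸ P
  have hCdom : IsDomain C := Ideal.Quotient.isDomain P
  have hCalg : Algebra.IsAlgebraic W C := halg P hP hPbot hπP
  have hCinj : Function.Injective (algebraMap W C) := by
    rw [injective_iff_map_eq_zero]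
    intro w hw
    by_contra hw0
    obtain ⟨m, u, rfl⟩ := IsDiscreteValuationRing.eq_unit_mul_pow_irreducible hw0 hπ
    rw [IsScalarTower.algebraMap_apply W B C, Ideal.Quotient.algebraMap_eq,
      Ideal.Quotient.eq_zero_iff_mem, map_mul, map_pow] at hw
    rcases hP.mem_or_mem hw with h | h
    · exact hP.ne_top (Ideal.eq_top_of_isUnit_mem _ h ((u.isUnit).map _))
    · exact hπP (hP.mem_of_pow_mem m h)
  have hCtf : Module.IsTorsionFree W C := Module.isTorsionFree_iff_algebraMap_injective.mpr hCinj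
  have hCflat : Module.Flat W C := inferInstance
  -- the point of the special fibre
  let ρ : Av →ₐ[W] IsLocalRing.ResidueField Av := IsScalarTower.toAlgHom W Av _
  have hρ : ∀ a, ρ a = IsLocalRing.residue Av a := fun a => rfl
  let ι : C →ₐ[W] IsLocalRing.ResidueField Av := Ideal.Quotient.liftₐ P (ρ.comp q) (by
    intro a ha
    have h1 : a ∈ n := hPn ha
    rw [mem_redIdeal] at h1
    rw [AlgHom.comp_apply, hρ]
    exact (IsLocalRing.residue_eq_zero_iff _).mpr h1)
  have hι : ∀ b : B, ι (Ideal.Quotient.mk P b) = IsLocalRing.residue Av (q b) := fun b => rfl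
  obtain ⟨φ, hφ⟩ := Lift.lift_of_flat_of_algebraic Ω hinj ι
  let q' : B →ₐ[W] Av := φ.comp (Ideal.Quotient.mkₐ W P)
  have hq' : ∀ b, q' b = φ (Ideal.Quotient.mk P b) := fun b => rfl
  have hcong : ∀ b, q' b - q b ∈ IsLocalRing.maximalIdeal Av := by
    intro b
    rw [← IsLocalRing.residue_eq_zero_iff, map_sub, hq', hφ, hι, sub_self]
  refine ⟨q', hcong, ?_⟩
  intro σ hσ b
  have hq's : q' s = 0 := by
    rw [hq', Ideal.Quotient.eq_zero_iff_mem.mpr hsP, map_zero]
  have hunit : ∀ d, d ∉ n → IsUnit (q' d) := by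
    intro d hd
    rw [mem_redIdeal] at hd
    rw [← IsLocalRing.notMem_maximalIdeal]
    intro h
    apply hd
    have := (IsLocalRing.maximalIdeal Av).sub_mem h (hcong d)
    simpa using this
  have hJ : ∀ x ∈ IsLocalRing.maximalIdeal Av, IsUnit (1 + x) := by
    intro x hx
    rw [← IsLocalRing.notMem_maximalIdeal]
    intro h
    have := (IsLocalRing.maximalIdeal Av).sub_mem h hx
    rw [add_sub_cancel_right] at this
    exact (IsLocalRing.maximalIdeal.isMaximal Av).ne_top ((Ideal.eq_top_iff_one _).mpr this)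
  have hrig := Rigid.rigid (O := Av) π n s hloc (hsep n hnmax hπn) (IsLocalRing.maximalIdeal Av) hJ
    (eq_zero_of_forall_pow_dvd hπ hπA) (σ.comp q') q'
    (by rw [AlgHom.comp_apply, hq's, map_zero]) hq's
    (fun d hd => by rw [AlgHom.comp_apply]; exact (hunit d hd).map σ) hunit
    (fun c => by rw [AlgHom.comp_apply]; exact hσ (q' c))
  exact AlgHom.congr_fun hrig b

end Main

section ValuationSubringForm

variable {W : Type*} [CommRing W] [IsDomain W] [IsDiscreteValuationRing W]
variable {Ω : Type*} [Field Ω] [Algebra W Ω]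
variable {B : Type*} [CommRing B] [IsDomain B] [Algebra W B]

/-- **The centres theorem**, `ValuationSubring` form (the shape consumed by G9, helper41):
`Ω` algebraically closed and algebraic over the DVR `W`, `A` a valuation subring of `Ω` dominating `W`.
Every `A`-valued point `q` of the chart `B` has a centre `q'`: an `A`-valued point with the same
reduction, fixed by every automorphism `σ` of `Ω` over `W` which preserves `A` and is trivial modulo
`𝔪_A` (i.e. by the inertia group of `A` over `W`). -/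
theorem exists_centre_valuationSubring [IsAlgClosed Ω] [Algebra.IsAlgebraic W Ω] {π : W}
    (hπ : Irreducible π) (hinj : Function.Injective (algebraMap W Ω))
    (A : ValuationSubring Ω) (hWA : ∀ w : W, algebraMap W Ω w ∈ A)
    (hdom : ∀ w : W, A.valuation (algebraMap W Ω w) < 1 ↔ w ∈ IsLocalRing.maximalIdeal W)
    (hπ0 : algebraMap W B π ≠ 0)
    (hprime : (Ideal.span {algebraMap W B π}).IsPrime)
    (hne : ∀ n : Ideal B, n.IsMaximal → algebraMap W B π ∈ n →
      n ≠ Ideal.span {algebraMap W B π})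
    (hsmooth : ∀ n : Ideal B, n.IsMaximal → algebraMap W B π ∈ n →
      ∃ s ∈ n, ∀ y ∈ n, ∃ d : B, d ∉ n ∧ d * y ∈ Ideal.span {algebraMap W B π, s})
    (halg : ∀ P : Ideal B, P.IsPrime → P ≠ ⊥ → algebraMap W B π ∉ P →
      Algebra.IsAlgebraic W (B ⧸ P))
    (hsep : ∀ n : Ideal B, n.IsMaximal → algebraMap W B π ∈ n →
      ∀ c : B, ∃ G : W[X], aeval c G ∈ n ∧ aeval c (derivative G) ∉ n)
    (q : B →ₐ[W] Ω) (hq : ∀ b, q b ∈ A) :
    ∃ q' : B →ₐ[W] Ω, (∀ b, q' b ∈ A) ∧ (∀ b, A.valuation (q' b - q b) < 1) ∧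
      ∀ σ : Ω ≃+* Ω, (∀ w : W, σ (algebraMap W Ω w) = algebraMap W Ω w) →
        (∀ a ∈ A, σ a ∈ A ∧ A.valuation (σ a - a) < 1) → ∀ b, σ (q' b) = q' b := by
  classical
  letI : Algebra W A := ((algebraMap W Ω).codRestrict A.toSubring hWA).toAlgebra
  have hAmap : ∀ w : W, ((algebraMap W A w : A) : Ω) = algebraMap W Ω w := fun w => rfl
  haveI : IsScalarTower W A Ω := IsScalarTower.of_algebraMap_eq (fun w => rfl)
  let incl : A →ₐ[W] Ω := IsScalarTower.toAlgHom W A Ω
  have hincl : ∀ a : A, incl a = (a : Ω) := fun a => rfl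
  haveI : Algebra.IsAlgebraic W A :=
    ⟨fun a => (isAlgebraic_algHom_iff incl Subtype.val_injective).mp
      (Algebra.IsAlgebraic.isAlgebraic (incl a))⟩
  have hinjA : Function.Injective (algebraMap W A) := fun w w' h =>
    hinj (by rw [← hAmap, ← hAmap, h])
  have hπA : algebraMap W A π ∈ IsLocalRing.maximalIdeal A := by
    rw [A.valuation_lt_one_iff, hAmap, hdom, hπ.maximalIdeal_eq]
    exact Ideal.subset_span rfl
  let q0 : B →ₐ[W] A :=
    { toFun := fun b => ⟨q b, hq b⟩
      map_one' := Subtype.ext (map_one q)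
      map_mul' := fun x y => Subtype.ext (map_mul q x y)
      map_zero' := Subtype.ext (map_zero q)
      map_add' := fun x y => Subtype.ext (map_add q x y)
      commutes' := fun w => Subtype.ext (q.commutes w) }
  obtain ⟨q1, hcong, hfix⟩ := exists_centre hπ Ω hinjA hπA hπ0 hprime hne hsmooth halg hsep q0
  refine ⟨incl.comp q1, fun b => (q1 b).2, fun b => ?_, ?_⟩
  · have := (A.valuation_lt_one_iff _).mp (hcong b)
    exact this
  · intro σ hσW hσ b
    let σA : A →ₐ[W] A :=
      { toFun := fun a => ⟨σ a, (hσ a a.2).1⟩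
        map_one' := Subtype.ext (map_one σ)
        map_mul' := fun x y => Subtype.ext (map_mul σ _ _)
        map_zero' := Subtype.ext (map_zero σ)
        map_add' := fun x y => Subtype.ext (map_add σ _ _)
        commutes' := fun w => Subtype.ext (hσW w) }
    have h1 : ∀ a : A, σA a - a ∈ IsLocalRing.maximalIdeal A := by
      intro a
      rw [A.valuation_lt_one_iff]
      exact (hσ a a.2).2
    have h2 := hfix σA h1 b
    exact congrArg Subtype.val h2

end ValuationSubringForm

end Fermat.Agent.T1.Centres92.Main
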